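import Fermat.Agent.Density.BrauerNesbitt
import Mathlib.NumberTheory.Padics.RingHoms

/-!
# Representations modulo a prime power with irreducible reduction

Over the local ring `ℤ/p^(k+1)` a representation without an eigenvector modulo `p` over the
algebraic closure of `𝔽_p` spans all matrices, so it is determined by its traces. A matrix of
square one and determinant `-1` has its eigenvectors over `𝔽_p`, `p` odd.
-/

set_option autoImplicit false

noncomputable section

open Matrix IsLocalRing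

namespace FA.TorsionIsoNF

variable {p : ℕ} [hp : Fact p.Prime]

/-- Reduction modulo `p`. -/
abbrev redP (k : ℕ) : ZMod (p ^ (k + 1)) →+* ZMod p :=
  ZMod.castHom (dvd_pow_self p k.succ_ne_zero) (ZMod p)

/-- No eigenvector common to all elements over the algebraic closure of `𝔽_p`. -/
def NoEigenvector {G : Type*} [Monoid G] (ρ : G →* Matrix (Fin 2) (Fin 2) (ZMod p)) : Prop :=
  ∀ v : Fin 2 → AlgebraicClosure (ZMod p), v ≠ 0 →
    ∃ g, ∀ c : AlgebraicClosure (ZMod p),
      (ρ g).map (algebraMap (ZMod p) (AlgebraicClosure (ZMod p))) *ᵥ v ≠ c • v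

/-- **Equal traces give conjugate representations** modulo `p ^ (k + 1)`. -/
theorem exists_conj {G : Type*} [Monoid G] {k : ℕ}
    (ρ₁ ρ₂ : G →* Matrix (Fin 2) (Fin 2) (ZMod (p ^ (k + 1))))
    (hirr : NoEigenvector (((redP k).mapMatrix : Matrix (Fin 2) (Fin 2) _ →+* _).toMonoidHom.comp
      ρ₁)) (htr : ∀ g, (ρ₁ g).trace = (ρ₂ g).trace) :
    ∃ P : Matrix (Fin 2) (Fin 2) (ZMod (p ^ (k + 1))), IsUnit P.det ∧
      ∀ g, ρ₂ g * P = P * ρ₁ g := by
  have : NeZero (p ^ (k + 1)) := ⟨pow_ne_zero _ hp.out.ne_zero⟩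
  have : Fact (1 < p ^ (k + 1)) := ⟨Nat.one_lt_pow k.succ_ne_zero hp.out.one_lt⟩
  have : IsLocalRing (ZMod (p ^ (k + 1))) :=
    IsLocalRing.of_surjective' (PadicInt.toZModPow (p := p) (k + 1))
      fun x => ⟨(x.val : ℤ_[p]), by rw [map_natCast, ZMod.natCast_zmod_val]⟩
  have : IsLocalHom (redP (p := p) k) :=
    IsLocalHom.of_surjective _ fun x => ⟨(x.val : ZMod (p ^ (k + 1))), by
      rw [map_natCast, ZMod.natCast_zmod_val]⟩
  let f : ResidueField (ZMod (p ^ (k + 1))) →+* ZMod p := ResidueField.lift (redP k)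
  let _ : Algebra (ResidueField (ZMod (p ^ (k + 1)))) (AlgebraicClosure (ZMod p)) :=
    ((algebraMap (ZMod p) (AlgebraicClosure (ZMod p))).comp f).toAlgebra
  let ρb : G →* Matrix (Fin 2) (Fin 2) (ResidueField (ZMod (p ^ (k + 1)))) :=
    (residue (ZMod (p ^ (k + 1)))).mapMatrix.toMonoidHom.comp ρ₁
  have hspan : Submodule.span (ResidueField (ZMod (p ^ (k + 1)))) (Set.range ρb) = ⊤ :=
    FA.Density.span_range_eq_top ρb (AlgebraicClosure (ZMod p)) fun v hv => by
      obtain ⟨g, hg⟩ := hirr v hv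
      refine ⟨g, fun c => ?_⟩
      convert hg c using 3
      ext i j
      simp [ρb, f, RingHom.algebraMap_toAlgebra, ResidueField.lift_residue_apply]
  exact FA.Density.exists_conj_of_trace_eq ρ₁ ρ₂
    (FA.Density.span_range_eq_top_of_residue ρ₁ hspan) htr

/-- **A common eigenvector of a family containing a reflection is rational.** -/
theorem noEigenvector_of_reflection (hp2 : p ≠ 2) {G : Type*} [Monoid G]
    (ρ : G →* Matrix (Fin 2) (Fin 2) (ZMod p)) {c₀ : G} (hsq : ρ c₀ * ρ c₀ = 1)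
    (hdet : (ρ c₀).det = -1)
    (hno : ∀ w : Fin 2 → ZMod p, w ≠ 0 → ∃ g, ∀ c : ZMod p, ρ g *ᵥ w ≠ c • w) :
    NoEigenvector ρ := by
  intro v hv
  by_contra! hall
  set ι := algebraMap (ZMod p) (AlgebraicClosure (ZMod p))
  obtain ⟨l, hl⟩ := hall c₀
  -- the eigenvalue is `± 1`
  have hl1 : l * l = 1 := by
    have h1 : (ρ c₀).map ι *ᵥ ((ρ c₀).map ι *ᵥ v) = v := by
      rw [mulVec_mulVec, ← Matrix.map_mul, hsq, Matrix.map_one _ (map_zero ι) (map_one ι),
        one_mulVec]
    rw [hl, mulVec_smul, hl, smul_smul] at h1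
    obtain ⟨i, hi⟩ := Function.ne_iff.mp hv
    exact mul_right_cancel₀ hi (by rw [one_mul]; exact congrFun h1 i)
  obtain ⟨m, hm, rfl⟩ : ∃ m : ZMod p, m * m = 1 ∧ ι m = l := by
    rcases mul_self_eq_one_iff.mp hl1 with rfl | rfl
    · exact ⟨1, one_mul 1, map_one ι⟩
    · exact ⟨-1, by ring, by rw [map_neg, map_one]⟩
  -- a rational eigenvector
  have hA : (ρ c₀ - m • 1).det = 0 := by
    refine ι.injective ?_
    rw [RingHom.map_det, map_zero]
    refine exists_mulVec_eq_zero_iff.mp ⟨v, hv, ?_⟩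
    rw [map_sub, sub_mulVec]
    show (ρ c₀).map ι *ᵥ v - (m • (1 : Matrix (Fin 2) (Fin 2) (ZMod p))).map ι *ᵥ v = 0
    rw [hl, sub_eq_zero]
    funext i
    fin_cases i <;> simp [mulVec, dotProduct, Fin.sum_univ_two, Matrix.map_apply, smul_eq_mul]
  obtain ⟨w, hw, hwA⟩ := exists_mulVec_eq_zero_iff.mpr hA
  rw [sub_mulVec, smul_mulVec, one_mulVec, sub_eq_zero] at hwA
  set w' : Fin 2 → AlgebraicClosure (ZMod p) := ι ∘ w
  have hw' : w' ≠ 0 := fun e => hw (funext fun i => ι.injective (by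
    rw [Pi.zero_apply, map_zero]; exact congrFun e i))
  -- the two eigenvectors are dependent
  have hD : v 0 * w' 1 - v 1 * w' 0 = 0 := by
    by_contra hD
    have e0 := congrFun hl 0
    have e1 := congrFun hl 1
    have f0 := congrArg ι (congrFun hwA 0)
    have f1 := congrArg ι (congrFun hwA 1)
    simp [mulVec, dotProduct, Fin.sum_univ_two, Matrix.map_apply] at e0 e1 f0 f1
    have k00 : ι (ρ c₀ 0 0) = ι m := mul_right_cancel₀ hD (by
      simp only [w', Function.comp_apply]; linear_combination ι (w 1) * e0 - v 1 * f0)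
    have k01 : ι (ρ c₀ 0 1) = 0 := mul_right_cancel₀ hD (by
      simp only [w', Function.comp_apply]; linear_combination -ι (w 0) * e0 + v 0 * f0)
    have k10 : ι (ρ c₀ 1 0) = 0 := mul_right_cancel₀ hD (by
      simp only [w', Function.comp_apply]; linear_combination ι (w 1) * e1 - v 1 * f1)
    have k11 : ι (ρ c₀ 1 1) = ι m := mul_right_cancel₀ hD (by
      simp only [w', Function.comp_apply]; linear_combination -ι (w 0) * e1 + v 0 * f1)
    have hd := congrArg ι hdet
    rw [det_fin_two, map_sub, map_mul, map_mul, k00, k01, k10, k11, ← map_mul, hm, map_one,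
      mul_zero, sub_zero, map_neg, map_one] at hd
    refine hp2 ?_
    have h2 : ((2 : ℕ) : AlgebraicClosure (ZMod p)) = 0 := by
      push_cast; linear_combination hd
    have : CharP (AlgebraicClosure (ZMod p)) p := charP_of_injective_algebraMap ι.injective p
    exact (Nat.prime_dvd_prime_iff_eq hp.out Nat.prime_two).1
      ((CharP.cast_eq_zero_iff _ p 2).1 h2)
  obtain ⟨a, ha⟩ : ∃ a : AlgebraicClosure (ZMod p), v = a • w' := by
    obtain ⟨i, hi⟩ := Function.ne_iff.mp hw'
    rw [Pi.zero_apply] at hi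
    refine ⟨v i / w' i, funext fun j => ?_⟩
    rw [Pi.smul_apply, smul_eq_mul, div_mul_eq_mul_div, eq_div_iff hi]
    fin_cases i <;> fin_cases j
    · rfl
    · show v 1 * w' 0 = v 0 * w' 1
      linear_combination -hD
    · show v 0 * w' 1 = v 1 * w' 0
      linear_combination hD
    · rfl
  obtain ⟨g, hg⟩ := hno w hw
  obtain ⟨c, hc⟩ := hall g
  obtain ⟨i, hi⟩ := Function.ne_iff.mp hw
  have ha0 : a ≠ 0 := fun e => hv (by rw [ha, e, zero_smul])
  rw [ha, mulVec_smul, smul_comm] at hc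
  have hc' : (ρ g).map ι *ᵥ w' = c • w' := smul_right_injective _ ha0 hc
  have hmap : (ρ g).map ι *ᵥ w' = ι ∘ (ρ g *ᵥ w) :=
    funext fun j => (RingHom.map_mulVec ι _ _ j).symm
  have hcr : c = ι ((ρ g *ᵥ w) i / w i) := by
    have := congrFun (hmap.symm.trans hc') i
    rw [Function.comp_apply, Pi.smul_apply, smul_eq_mul] at this
    rw [map_div₀, eq_div_iff ((map_ne_zero ι).2 hi)]
    exact this.symm
  refine hg ((ρ g *ᵥ w) i / w i) (funext fun j => ι.injective ?_)
  rw [Pi.smul_apply, smul_eq_mul, map_mul, ← hcr]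
  exact congrFun (hmap.symm.trans hc') j

end FA.TorsionIsoNF

end
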