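import Fermat.Agent.TorsionIsoNF.Algebra
import Fermat.Agent.TracePairNF.Traces
import Fermat.Agent.IsogenyNF.RealPlace

/-!
# Galois modules of torsion from traces

Generators turn conjugate matrices into an equivariant isomorphism of the points killed by `N` and
conversely. At a real place complex conjugation inverts the roots of unity, so its determinant is
`-1`.
-/

set_option autoImplicit false
set_option linter.unusedSectionVars false

noncomputable section

namespace FA.TorsionIsoNF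

open WeierstrassCurve Matrix FA.IsogenyNF
open scoped WeierstrassCurve.Affine Classical ComplexConjugate

universe u v

variable {K : Type u} [Field K] [NumberField K] {Kb : Type v} [Field Kb] [DecidableEq Kb]
  [Algebra K Kb] [CharZero Kb] [IsAlgClosed Kb] [Algebra.IsAlgebraic K Kb]
  {E E' : WeierstrassCurve K} [E.IsElliptic] [E'.IsElliptic]

/-- The points killed by `N`. -/
abbrev killed (E : WeierstrassCurve K) [E.IsElliptic] (N : ℕ) :
    AddSubgroup (E.toAffine⁄Kb).Point :=
  (nsmulAddMonoidHom N).ker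

/-- An equivariant isomorphism of the points killed by `N`. -/
def TorsionIso (E E' : WeierstrassCurve K) [E.IsElliptic] [E'.IsElliptic] (N : ℕ) : Prop :=
  ∃ e : killed (Kb := Kb) E N ≃+ killed (Kb := Kb) E' N,
    ∀ (σ : Kb ≃ₐ[K] Kb) (x y : killed (Kb := Kb) E N), σ • (x : (E.toAffine⁄Kb).Point) = y →
      σ • (e x : (E'.toAffine⁄Kb).Point) = e y

/-- The coordinates as an isomorphism onto the points killed by `N`. -/
def coordEquiv {N : ℕ} (hN : N ≠ 0) {P Q : (E.toAffine⁄Kb).Point} (h : TorGen E N P Q) :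
    (Fin 2 → ZMod N) ≃+ killed (Kb := Kb) E N :=
  AddEquiv.ofBijective (h.coord.codRestrict _ fun v => h.nsmul_coord v)
    ⟨fun _ _ e => h.coord_injective hN (congrArg Subtype.val e :),
      fun ⟨R, hR⟩ => (h.coord_surj (hR : N • R = 0)).imp fun _ hv => Subtype.ext hv⟩

/-- **Conjugate matrices give an isomorphism.** -/
theorem torsionIso_of_conj {N : ℕ} (hN : N ≠ 0) {P Q : (E.toAffine⁄Kb).Point}
    (h : TorGen E N P Q) {P' Q' : (E'.toAffine⁄Kb).Point} (h' : TorGen E' N P' Q')
    {M : Matrix (Fin 2) (Fin 2) (ZMod N)} (hM : IsUnit M.det)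
    (hcomm : ∀ σ : Kb ≃ₐ[K] Kb, h'.rep hN σ * M = M * h.rep hN σ) :
    TorsionIso (Kb := Kb) E E' N := by
  let m : (Fin 2 → ZMod N) ≃+ (Fin 2 → ZMod N) :=
    (Matrix.toLinearEquiv' M (Matrix.invertibleOfIsUnitDet M hM)).toAddEquiv
  refine ⟨((coordEquiv hN h).symm.trans m).trans (coordEquiv hN h'), fun σ x y hxy => ?_⟩
  obtain ⟨u, rfl⟩ := (coordEquiv hN h).surjective x
  have hy : y = coordEquiv hN h (h.rep hN σ *ᵥ u) :=
    Subtype.ext (hxy.symm.trans (h.rep_spec hN σ u))
  simp only [hy, AddEquiv.trans_apply, AddEquiv.symm_apply_apply]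
  show σ • h'.coord (M *ᵥ u) = h'.coord (M *ᵥ (h.rep hN σ *ᵥ u))
  rw [h'.rep_spec hN, mulVec_mulVec, mulVec_mulVec, hcomm]

/-- **An isomorphism gives equal matrices** in suitable generators. -/
theorem exists_equal_rep {N : ℕ} (hN : N ≠ 0) (hiso : TorsionIso (Kb := Kb) E E' N)
    {P Q : (E.toAffine⁄Kb).Point} (h : TorGen E N P Q) :
    ∃ (P' Q' : (E'.toAffine⁄Kb).Point) (h' : TorGen E' N P' Q'),
      ∀ σ : Kb ≃ₐ[K] Kb, h'.rep hN σ = h.rep hN σ := by
  obtain ⟨e, he⟩ := hiso
  let t : (Fin 2 → ZMod N) →+ (E'.toAffine⁄Kb).Point :=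
    (killed (Kb := Kb) E' N).subtype.comp ((coordEquiv hN h).trans e).toAddMonoidHom
  have ht : ∀ i j : ℤ, t ![(i : ZMod N), (j : ZMod N)] =
      i • t (Pi.single 0 1) + j • t (Pi.single 1 1) := fun i j => by
    rw [← map_zsmul, ← map_zsmul, ← map_add]
    congr 1
    funext s
    fin_cases s <;> simp
  have h' : TorGen E' N (t (Pi.single 0 1)) (t (Pi.single 1 1)) := by
    refine ⟨?_, ?_, fun R hR => ?_⟩
    · exact (e (coordEquiv hN h (Pi.single 0 1))).2
    · exact (e (coordEquiv hN h (Pi.single 1 1))).2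
    · obtain ⟨u, hu⟩ := ((coordEquiv hN h).trans e).surjective ⟨R, hR⟩
      obtain ⟨i, hi⟩ := ZMod.intCast_surjective (u 0)
      obtain ⟨j, hj⟩ := ZMod.intCast_surjective (u 1)
      refine ⟨i, j, ?_⟩
      rw [← ht, show ![(i : ZMod N), (j : ZMod N)] = u from funext fun s => by
        fin_cases s <;> simp [hi, hj]]
      exact (congrArg Subtype.val hu).symm
  refine ⟨_, _, h', fun σ => Matrix.ext_of_mulVec_single fun i => h'.coord_injective hN ?_⟩
  have hcoord : ∀ u, h'.coord u = t u := fun u => by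
    obtain ⟨a, ha⟩ := ZMod.intCast_surjective (u 0)
    obtain ⟨b, hb⟩ := ZMod.intCast_surjective (u 1)
    rw [show u = ![(a : ZMod N), (b : ZMod N)] from funext fun s => by
      fin_cases s <;> simp [ha, hb], h'.coord_intCast, ht]
  rw [← h'.rep_spec, hcoord, hcoord]
  exact he σ _ _ (h.rep_spec hN σ _)

/-- Reduction modulo `p` of the action at `p ^ (k + 1)` is the action at `p`. -/
theorem rep_redP {p k : ℕ} [Fact p.Prime] (hp : p ≠ 0) (hn : p ^ (k + 1) ≠ 0)
    {P Q : (E.toAffine⁄Kb).Point} (h : TorGen E (p ^ (k + 1)) P Q) (σ : Kb ≃ₐ[K] Kb) :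
    (h.toPrime hp).rep hp σ = (redP k).mapMatrix (h.rep hn σ) := by
  set h₀ := h.toPrime hp
  set π := redP (p := p) k
  have hred : ∀ w : Fin 2 → ZMod (p ^ (k + 1)), p ^ k • h.coord w = h₀.coord (π ∘ w) := fun w => by
    obtain ⟨i, hi⟩ := ZMod.intCast_surjective (w 0)
    obtain ⟨j, hj⟩ := ZMod.intCast_surjective (w 1)
    have hw : w = ![(i : ZMod (p ^ (k + 1))), (j : ZMod (p ^ (k + 1)))] :=
      funext fun s => by fin_cases s <;> simp [hi, hj]
    have hw' : π ∘ w = ![(i : ZMod p), (j : ZMod p)] :=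
      funext fun s => by fin_cases s <;> simp [hw, π]
    rw [hw', h₀.coord_intCast, hw, h.coord_intCast, nsmul_add, smul_comm _ i, smul_comm _ j]
  refine Matrix.ext_of_mulVec_single fun i => h₀.coord_injective hp ?_
  have hsingle : (Pi.single i 1 : Fin 2 → ZMod p) = π ∘ Pi.single i 1 := funext fun j => by
    rw [Function.comp_apply, Pi.single_apply, Pi.single_apply, apply_ite π, map_one, map_zero]
  rw [← h₀.rep_spec, hsingle, ← hred, smul_nsmul', h.rep_spec hn, hred]
  exact congrArg h₀.coord (funext fun j => RingHom.map_mulVec π _ _ j)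

variable (Kb) in
/-- `E[p]` has no eigenvector common to all of Galois over the algebraic closure of `𝔽_p`. -/
def AbsIrreducible (E : WeierstrassCurve K) [E.IsElliptic] (p : ℕ) [Fact p.Prime] : Prop :=
  ∀ (P Q : (E.toAffine⁄Kb).Point) (h : TorGen E p P Q),
    NoEigenvector (h.rep (Fact.out : p.Prime).ne_zero)

/-- **No stable subgroup and a real place give absolute irreducibility**, `p` odd. -/
theorem absIrreducible_of_real {p : ℕ} [hp : Fact p.Prime] (hp2 : p ≠ 2) (φ : Kb →+* ℂ)
    (hreal : ∀ x : K, conj (φ (algebraMap K Kb x)) = φ (algebraMap K Kb x))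
    (hirr : ∀ G : AddSubgroup (E.toAffine⁄Kb).Point, Nat.card G = p →
      ¬ ∀ σ : Kb ≃ₐ[K] Kb, ∀ R ∈ G, σ • R ∈ G) :
    AbsIrreducible Kb E p := by
  intro P Q h
  have hp0 : p ≠ 0 := hp.out.ne_zero
  obtain ⟨c, hc⟩ := exists_conjugation φ hreal
  have hsq : c * c = 1 := AlgEquiv.ext fun x => φ.injective (by
    show φ (c (c x)) = φ x
    rw [hc, hc, Complex.conj_conj])
  have hdet : (h.rep hp0 c).det = -1 := by
    rw [FA.WeilNF.det_rep hp0 h (a := p - 1) fun μ hμ => ?_]
    · rw [Nat.cast_sub hp.out.one_lt.le, ZMod.natCast_self, Nat.cast_one, zero_sub]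
    · refine φ.injective ?_
      have h1 : φ μ ^ p = 1 := by rw [← map_pow, hμ, map_one]
      rw [hc, map_pow, ← Complex.inv_eq_conj (Complex.norm_eq_one_of_pow_eq_one h1 hp0)]
      refine inv_eq_of_mul_eq_one_right ?_
      rw [← pow_succ', Nat.sub_add_cancel hp.out.one_lt.le, h1]
  refine noEigenvector_of_reflection hp2 _ (c₀ := c) (by rw [← map_mul, hsq, map_one]) hdet
    fun w hw => ?_
  by_contra! hall
  refine hirr (AddSubgroup.zmultiples (h.coord w)) ?_ fun σ R hR => ?_
  · rw [Nat.card_zmultiples]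
    refine addOrderOf_eq_prime (h.nsmul_coord w) fun e => hw (h.coord_injective hp0 ?_)
    rw [e, map_zero]
  · obtain ⟨j, rfl⟩ := AddSubgroup.mem_zmultiples_iff.1 hR
    obtain ⟨a, ha⟩ := hall σ
    obtain ⟨a', ha'⟩ := ZMod.intCast_surjective a
    rw [← ha', Int.cast_smul_eq_zsmul] at ha
    rw [← map_zsmul, h.rep_spec hp0, mulVec_smul, ha, smul_smul, map_zsmul]
    exact AddSubgroup.zsmul_mem_zmultiples _ _

end FA.TorsionIsoNF

end
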